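import Fermat.Agent.FF3.Glue.Node

/-!
# Programme I (S33, p-new half), contract D-B2, part 2: the gluing class of a family of nodes

A *frame* is a family of gluing nodes `N s` (`s : ν` the nodes of the special fibre) sharing the
constants `W` and the two component rings `Oi`, `Oz` (two-component special fibre, every node joins
the component `∞` to the component `0`, as for `X₀(pM)` at `p`).

A *global root datum* is a family of units `g s` of the node rings (the images of ONE function `f`,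
`div f = n D`, `D` with smooth reduction) with ONE `n`-th root `yi` in `Oi` and ONE `n`-th root `yz`
in `Oz`.  Its gluing vector `glueVec : ν → W` has values in the `n`-th roots of unity; it is
multiplicative, it is multiplied by the constant vector `ξ` when `yi` is rescaled by `ξ`, and it is
constant `= ξ` iff after rescaling `yz` by `ξ` the roots on the two components and at all the nodes
are compatible (`glueVec_eq_const_iff`): the hypothesis of the algebraisation block D-B4.
-/

set_option autoImplicit false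

namespace Fermat.Agent.FF3.Glue

variable {W Oi Oz : Type*} [CommRing W] [CommRing Oi] [CommRing Oz] {ν : Type*}
  {R B1 B2 : ν → Type*} [∀ s, CommRing (R s)] [∀ s, CommRing (B1 s)] [∀ s, CommRing (B2 s)]
  {n : ℕ}

/-- A frame: a family of gluing nodes with the same constant maps to the component rings. -/
structure Frame (W Oi Oz : Type*) [CommRing W] [CommRing Oi] [CommRing Oz] (ν : Type*)
    (R B1 B2 : ν → Type*) [∀ s, CommRing (R s)] [∀ s, CommRing (B1 s)] [∀ s, CommRing (B2 s)]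
    (n : ℕ) where
  node : ∀ s, Node W (R s) (B1 s) (B2 s) Oi Oz n
  cOi : W →+* Oi
  cOz : W →+* Oz
  hcOi : ∀ s, (node s).cOi = cOi
  hcOz : ∀ s, (node s).cOz = cOz

/-- A global root datum on a frame. -/
structure GlobalDatum (Fr : Frame W Oi Oz ν R B1 B2 n) where
  g : ∀ s, R s
  hg : ∀ s, IsUnit (g s)
  yi : Oi
  yz : Oz
  h1 : ∀ s, (Fr.node s).b1 yi ^ n = (Fr.node s).a1 (g s)
  h2 : ∀ s, (Fr.node s).b2 yz ^ n = (Fr.node s).a2 (g s)

namespace GlobalDatum

variable {Fr : Frame W Oi Oz ν R B1 B2 n}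

/-- The local root datum at the node `s`. -/
def atNode (d : GlobalDatum Fr) (s : ν) : RootDatum (Fr.node s) where
  g := d.g s
  hg := d.hg s
  yi := d.yi
  yz := d.yz
  h1 := d.h1 s
  h2 := d.h2 s

/-- Product of global root data. -/
def mul (d e : GlobalDatum Fr) : GlobalDatum Fr where
  g := fun s => d.g s * e.g s
  hg := fun s => (d.hg s).mul (e.hg s)
  yi := d.yi * e.yi
  yz := d.yz * e.yz
  h1 := fun s => ((d.atNode s).mul (e.atNode s)).h1
  h2 := fun s => ((d.atNode s).mul (e.atNode s)).h2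

/-- Rescaling the root on the first component. -/
def smulLeft (d : GlobalDatum Fr) (ξ : W) (hξ : ξ ^ n = 1) : GlobalDatum Fr where
  g := d.g
  hg := d.hg
  yi := Fr.cOi ξ * d.yi
  yz := d.yz
  h1 := fun s => by
    rw [map_mul, mul_pow, d.h1 s, ← map_pow, ← map_pow, hξ, map_one, map_one, one_mul]
  h2 := d.h2

/-- Rescaling the root on the second component. -/
def smulRight (d : GlobalDatum Fr) (ξ : W) (hξ : ξ ^ n = 1) : GlobalDatum Fr where
  g := d.g
  hg := d.hg
  yi := d.yi
  yz := Fr.cOz ξ * d.yz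
  h1 := d.h1
  h2 := fun s => by
    rw [map_mul, mul_pow, d.h2 s, ← map_pow, ← map_pow, hξ, map_one, map_one, one_mul]

/-- The gluing vector of a global root datum. -/
noncomputable def glueVec (hn : n ≠ 0) (d : GlobalDatum Fr) : ν → W :=
  fun s => glue (Fr.node s) hn (d.atNode s)

theorem glueVec_pow (hn : n ≠ 0) (d : GlobalDatum Fr) (s : ν) : d.glueVec hn s ^ n = 1 :=
  glue_pow _ hn _

theorem glueVec_mul (hn : n ≠ 0) (d e : GlobalDatum Fr) (s : ν) :
    (d.mul e).glueVec hn s = d.glueVec hn s * e.glueVec hn s :=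
  glue_mul hn (d.atNode s) (e.atNode s)

theorem glueVec_smulLeft (hn : n ≠ 0) (d : GlobalDatum Fr) (ξ : W) (hξ : ξ ^ n = 1) (s : ν) :
    (d.smulLeft ξ hξ).glueVec hn s = ξ * d.glueVec hn s := by
  have h := ((isGlue_glue (Fr.node s) hn (d.atNode s)).smulLeft ξ hξ)
  refine glue_eq_of_isGlue (Fr.node s) hn _ ?_
  obtain ⟨h1, r, hr, ζ₁, ζ₂, hζ₁, hζ₂, e1, e2, e3⟩ := h
  refine ⟨h1, r, hr, ζ₁, ζ₂, hζ₁, hζ₂, ?_, e2, e3⟩
  rw [← e1]
  show (Fr.node s).b1 (Fr.cOi ξ * d.yi) = (Fr.node s).b1 ((Fr.node s).cOi ξ * d.yi)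
  rw [Fr.hcOi s]

theorem glueVec_smulRight (hn : n ≠ 0) (d : GlobalDatum Fr) (ξ : W) (hξ : ξ ^ n = 1) (s : ν) :
    (d.smulRight ξ hξ).glueVec hn s = ξ ^ (n - 1) * d.glueVec hn s := by
  have h := ((isGlue_glue (Fr.node s) hn (d.atNode s)).smulRight hn ξ hξ)
  refine glue_eq_of_isGlue (Fr.node s) hn _ ?_
  obtain ⟨h1, r, hr, ζ₁, ζ₂, hζ₁, hζ₂, e1, e2, e3⟩ := h
  refine ⟨h1, r, hr, ζ₁, ζ₂, hζ₁, hζ₂, e1, ?_, e3⟩
  rw [← e2]
  show (Fr.node s).b2 (Fr.cOz ξ * d.yz) = (Fr.node s).b2 ((Fr.node s).cOz ξ * d.yz)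
  rw [Fr.hcOz s]

/-- The three kinds of roots are compatible: one root at every node restricting to `yi` and `yz`. -/
def Compatible (d : GlobalDatum Fr) : Prop :=
  ∀ s, ∃ r : R s, r ^ n = d.g s ∧ (Fr.node s).b1 d.yi = (Fr.node s).a1 r ∧
    (Fr.node s).b2 d.yz = (Fr.node s).a2 r

theorem compatible_iff (hn : n ≠ 0) (d : GlobalDatum Fr) :
    d.Compatible ↔ ∀ s, d.glueVec hn s = 1 :=
  forall_congr' fun s => (glue_eq_one_iff hn (d.atNode s)).symm

/-- **Trivial gluing class**: if the gluing vector is constant `= ξ`, then after rescaling the root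
on the second component by `ξ` the datum is compatible. -/
theorem compatible_smulRight_of_const (hn : n ≠ 0) (d : GlobalDatum Fr) (ξ : W)
    (h : ∀ s, d.glueVec hn s = ξ) (hν : Nonempty ν) :
    ∃ hξ : ξ ^ n = 1, (d.smulRight ξ hξ).Compatible := by
  obtain ⟨s₀⟩ := hν
  have hξ : ξ ^ n = 1 := by rw [← h s₀]; exact d.glueVec_pow hn s₀
  refine ⟨hξ, (compatible_iff hn _).mpr fun s => ?_⟩
  have hn' : n - 1 + 1 = n := Nat.sub_add_cancel (Nat.one_le_iff_ne_zero.mpr hn)
  rw [glueVec_smulRight, h s, ← pow_succ, hn', hξ]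

/-- Powers of a global root datum. -/
def npow (d : GlobalDatum Fr) (k : ℕ) : GlobalDatum Fr where
  g := fun s => d.g s ^ k
  hg := fun s => (d.hg s).pow k
  yi := d.yi ^ k
  yz := d.yz ^ k
  h1 := fun s => ((d.atNode s).npow k).h1
  h2 := fun s => ((d.atNode s).npow k).h2

/-- The inverse of a global root datum, given inverses of its two roots. -/
noncomputable def inv (d : GlobalDatum Fr) (yi' : Oi) (yz' : Oz) (hi : d.yi * yi' = 1)
    (hz : d.yz * yz' = 1) : GlobalDatum Fr where
  g := fun s => (((d.hg s).unit⁻¹ : (R s)ˣ) : R s)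
  hg := fun _ => Units.isUnit _
  yi := yi'
  yz := yz'
  h1 := fun s => ((d.atNode s).inv yi' yz' hi hz).h1
  h2 := fun s => ((d.atNode s).inv yi' yz' hi hz).h2

theorem glueVec_npow (hn : n ≠ 0) (d : GlobalDatum Fr) (k : ℕ) (s : ν) :
    (d.npow k).glueVec hn s = d.glueVec hn s ^ k :=
  glue_eq_of_isGlue (Fr.node s) hn _ ((isGlue_glue (Fr.node s) hn (d.atNode s)).npow k)

theorem glueVec_inv (hn : n ≠ 0) (d : GlobalDatum Fr) (yi' : Oi) (yz' : Oz) (hi : d.yi * yi' = 1)
    (hz : d.yz * yz' = 1) (s : ν) :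
    (d.inv yi' yz' hi hz).glueVec hn s = d.glueVec hn s ^ (n - 1) :=
  glue_eq_of_isGlue (Fr.node s) hn _
    ((isGlue_glue (Fr.node s) hn (d.atNode s)).inv hn yi' yz' hi hz)

end GlobalDatum

/-- An endomorphism of a frame fixing every node (the action of an element of the inertia group:
it fixes the two components and all the nodes of the special fibre). -/
structure FrameHom (Fr : Frame W Oi Oz ν R B1 B2 n) where
  σW : W →+* W
  σOi : Oi →+* Oi
  σOz : Oz →+* Oz
  node : ∀ s, NodeHom (Fr.node s)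
  hW : ∀ s, (node s).σW = σW
  hOi : ∀ s, (node s).σOi = σOi
  hOz : ∀ s, (node s).σOz = σOz

namespace GlobalDatum

variable {Fr : Frame W Oi Oz ν R B1 B2 n}

/-- The image of a global root datum under an endomorphism of the frame. -/
def map (d : GlobalDatum Fr) (σ : FrameHom Fr) : GlobalDatum Fr where
  g := fun s => (σ.node s).σR (d.g s)
  hg := fun s => (d.hg s).map _
  yi := σ.σOi d.yi
  yz := σ.σOz d.yz
  h1 := fun s => by
    have h := ((d.atNode s).map (σ.node s)).h1
    simp only [RootDatum.map, atNode, σ.hOi s] at h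
    exact h
  h2 := fun s => by
    have h := ((d.atNode s).map (σ.node s)).h2
    simp only [RootDatum.map, atNode, σ.hOz s] at h
    exact h

/-- **Equivariance** of the gluing vector. -/
theorem glueVec_map (hn : n ≠ 0) (d : GlobalDatum Fr) (σ : FrameHom Fr) (s : ν) :
    (d.map σ).glueVec hn s = σ.σW (d.glueVec hn s) := by
  have h := (isGlue_glue (Fr.node s) hn (d.atNode s)).map (σ.node s)
  rw [σ.hW s] at h
  refine glue_eq_of_isGlue (Fr.node s) hn _ ?_
  obtain ⟨h0, r, hr, ζ₁, ζ₂, hζ₁, hζ₂, e1, e2, e3⟩ := h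
  refine ⟨h0, r, hr, ζ₁, ζ₂, hζ₁, hζ₂, ?_, ?_, e3⟩
  · rw [← e1]
    show (Fr.node s).b1 (σ.σOi d.yi) = (Fr.node s).b1 ((σ.node s).σOi d.yi)
    rw [σ.hOi s]
  · rw [← e2]
    show (Fr.node s).b2 (σ.σOz d.yz) = (Fr.node s).b2 ((σ.node s).σOz d.yz)
    rw [σ.hOz s]

/-- **The twist theorem (abstract Step B, part (B-iii)).** If `σ` raises the `n`-th roots of unity
of `W` to the power `a`, then the datum `σ(d) · d ^ (-a)` has trivial gluing vector, i.e. it is
compatible. -/
theorem compatible_twist (hn : n ≠ 0) (σ : FrameHom Fr) (a : ℕ)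
    (hσ : ∀ ζ : W, ζ ^ n = 1 → σ.σW ζ = ζ ^ a) (d : GlobalDatum Fr) (yi' : Oi) (yz' : Oz)
    (hi : d.yi * yi' = 1) (hz : d.yz * yz' = 1) :
    ((d.map σ).mul ((d.inv yi' yz' hi hz).npow a)).Compatible := by
  rw [compatible_iff hn]
  intro s
  have hn' : n - 1 + 1 = n := Nat.sub_add_cancel (Nat.one_le_iff_ne_zero.mpr hn)
  have hζ := d.glueVec_pow hn s
  rw [glueVec_mul, glueVec_map, glueVec_npow, glueVec_inv, hσ _ hζ, ← pow_mul, ← pow_add]
  calc d.glueVec hn s ^ (a + (n - 1) * a) = (d.glueVec hn s ^ n) ^ a := by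
        rw [← pow_mul]
        congr 1
        calc a + (n - 1) * a = (n - 1 + 1) * a := by ring
          _ = n * a := by rw [hn']
    _ = 1 := by rw [hζ, one_pow]

end GlobalDatum

end Fermat.Agent.FF3.Glue
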