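import Mathlib

/-!
# Programme I (S33, p-new half), contract D-B2, part 1: the gluing constant at ONE node

Abstract algebra only (Mathlib-only, no valuations, no completions).

A *gluing node* consists of a ring of constants `W`, the (completed) local ring `R` of the model at a
node, its two boundary rings `B1`, `B2` (the completed localisations at the two vertical primes), the
two component rings `Oi`, `Oz` (completions at the two Gauss valuations), and ring homomorphisms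

```
        Oi --b1--> B1 <--a1-- R --a2--> B2 <--b2-- Oz ,      W --> everything, compatibly.
```

Hypotheses (all provided by the expansion layer D-B3 and the Birkhoff leaf L1):

* `roots1`, `roots2`   : the `n`-th roots of `1` in `B1`, `B2` are constants;
* `const_inj1/2`       : the constants embed in `B1`, `B2`;
* `a1_inj`             : `R` embeds in `B1`;
* `birkhoff`           : a unit of `R` which is an `n`-th power in both boundary rings is an `n`-th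
                         power in `R`.

A *root datum* is a unit `g` of `R` (the image of the function `f`, `div f = n D`) with `n`-th roots
`yi` in `Oi` and `yz` in `Oz` (after pushing to the boundary rings).  Its *gluing constant* is the
unique `ζ : W`, `ζ ^ n = 1`, such that for one (any) `n`-th root `r` of `g` in `R`:
`b1 yi = ζ₁ • a1 r`, `b2 yz = ζ₂ • a2 r`, `ζ * ζ₂ = ζ₁`.

Main results: `exists_isGlue`, `isGlue_unique`, `IsGlue.mul`, `IsGlue.smul_left/right`,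
`isGlue_one_iff` (trivial gluing constant `↔` the three roots are compatible after ONE common
rescaling), `IsGlue.map` (equivariance under an automorphism of the whole diagram).
-/

set_option autoImplicit false

namespace Fermat.Agent.FF3.Glue

/-- The gluing diagram at one node. Plain ring homomorphisms (no `Algebra` instances) so that
semilinear automorphisms of the diagram can be applied without instance clashes. -/
structure Node (W R B1 B2 Oi Oz : Type*) [CommRing W] [CommRing R] [CommRing B1] [CommRing B2]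
    [CommRing Oi] [CommRing Oz] (n : ℕ) where
  cR : W →+* R
  cOi : W →+* Oi
  cOz : W →+* Oz
  a1 : R →+* B1
  a2 : R →+* B2
  b1 : Oi →+* B1
  b2 : Oz →+* B2
  comm1 : ∀ c : W, a1 (cR c) = b1 (cOi c)
  comm2 : ∀ c : W, a2 (cR c) = b2 (cOz c)
  a1_inj : Function.Injective a1
  const_inj1 : Function.Injective fun c : W => a1 (cR c)
  const_inj2 : Function.Injective fun c : W => a2 (cR c)
  roots1 : ∀ y : B1, y ^ n = 1 → ∃ ζ : W, ζ ^ n = 1 ∧ a1 (cR ζ) = y
  roots2 : ∀ y : B2, y ^ n = 1 → ∃ ζ : W, ζ ^ n = 1 ∧ a2 (cR ζ) = y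
  birkhoff : ∀ g : R, IsUnit g → (∃ y : B1, y ^ n = a1 g) → (∃ y : B2, y ^ n = a2 g) →
    ∃ r : R, r ^ n = g

variable {W R B1 B2 Oi Oz : Type*} [CommRing W] [CommRing R] [CommRing B1] [CommRing B2]
  [CommRing Oi] [CommRing Oz] {n : ℕ}

/-- A root datum at a node: a unit `g` of the node ring with `n`-th roots on both components. -/
structure RootDatum (N : Node W R B1 B2 Oi Oz n) where
  g : R
  hg : IsUnit g
  yi : Oi
  yz : Oz
  h1 : N.b1 yi ^ n = N.a1 g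
  h2 : N.b2 yz ^ n = N.a2 g

namespace RootDatum

variable {N : Node W R B1 B2 Oi Oz n}

/-- The product of two root data. -/
def mul (d e : RootDatum N) : RootDatum N where
  g := d.g * e.g
  hg := d.hg.mul e.hg
  yi := d.yi * e.yi
  yz := d.yz * e.yz
  h1 := by rw [map_mul, mul_pow, d.h1, e.h1, map_mul]
  h2 := by rw [map_mul, mul_pow, d.h2, e.h2, map_mul]

/-- Rescaling the root on the first component by an `n`-th root of unity. -/
def smulLeft (d : RootDatum N) (ξ : W) (hξ : ξ ^ n = 1) : RootDatum N where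
  g := d.g
  hg := d.hg
  yi := N.cOi ξ * d.yi
  yz := d.yz
  h1 := by rw [map_mul, mul_pow, d.h1, ← map_pow, ← map_pow, hξ, map_one, map_one, one_mul]
  h2 := d.h2

/-- Rescaling the root on the second component by an `n`-th root of unity. -/
def smulRight (d : RootDatum N) (ξ : W) (hξ : ξ ^ n = 1) : RootDatum N where
  g := d.g
  hg := d.hg
  yi := d.yi
  yz := N.cOz ξ * d.yz
  h1 := d.h1
  h2 := by rw [map_mul, mul_pow, d.h2, ← map_pow, ← map_pow, hξ, map_one, map_one, one_mul]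

/-- The datum of a global `n`-th power: `g = (cR-image of) r ^ n` with the SAME root on all pieces. -/
def ofRoot (r : R) (hr : IsUnit r) (yi : Oi) (yz : Oz) (h1 : N.b1 yi = N.a1 r)
    (h2 : N.b2 yz = N.a2 r) : RootDatum N where
  g := r ^ n
  hg := hr.pow n
  yi := yi
  yz := yz
  h1 := by rw [h1, map_pow]
  h2 := by rw [h2, map_pow]

/-- The trivial root datum. -/
def one : RootDatum N where
  g := 1
  hg := isUnit_one
  yi := 1
  yz := 1
  h1 := by rw [map_one, one_pow, map_one]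
  h2 := by rw [map_one, one_pow, map_one]

/-- Powers of a root datum. -/
def npow (d : RootDatum N) (k : ℕ) : RootDatum N where
  g := d.g ^ k
  hg := d.hg.pow k
  yi := d.yi ^ k
  yz := d.yz ^ k
  h1 := by rw [map_pow, ← pow_mul, mul_comm, pow_mul, d.h1, map_pow]
  h2 := by rw [map_pow, ← pow_mul, mul_comm, pow_mul, d.h2, map_pow]

/-- The inverse of a root datum, given inverses of its two roots. -/
noncomputable def inv (d : RootDatum N) (yi' : Oi) (yz' : Oz) (hi : d.yi * yi' = 1) (hz : d.yz * yz' = 1) :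
    RootDatum N where
  g := ((d.hg.unit⁻¹ : Rˣ) : R)
  hg := Units.isUnit _
  yi := yi'
  yz := yz'
  h1 := by
    have hu : IsUnit (N.a1 d.g) := d.hg.map N.a1
    apply hu.mul_left_injective
    show N.b1 yi' ^ n * N.a1 d.g = N.a1 ((d.hg.unit⁻¹ : Rˣ) : R) * N.a1 d.g
    rw [← map_mul, IsUnit.val_inv_mul, map_one, ← d.h1, ← mul_pow, ← map_mul, mul_comm yi', hi,
      map_one, one_pow]
  h2 := by
    have hu : IsUnit (N.a2 d.g) := d.hg.map N.a2
    apply hu.mul_left_injective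
    show N.b2 yz' ^ n * N.a2 d.g = N.a2 ((d.hg.unit⁻¹ : Rˣ) : R) * N.a2 d.g
    rw [← map_mul, IsUnit.val_inv_mul, map_one, ← d.h2, ← mul_pow, ← map_mul, mul_comm yz', hz,
      map_one, one_pow]

end RootDatum

/-- `ζ` is the gluing constant of the root datum `d`. -/
def IsGlue (N : Node W R B1 B2 Oi Oz n) (d : RootDatum N) (ζ : W) : Prop :=
  ζ ^ n = 1 ∧ ∃ r : R, r ^ n = d.g ∧ ∃ ζ₁ ζ₂ : W, ζ₁ ^ n = 1 ∧ ζ₂ ^ n = 1 ∧
    N.b1 d.yi = N.a1 (N.cR ζ₁ * r) ∧ N.b2 d.yz = N.a2 (N.cR ζ₂ * r) ∧ ζ * ζ₂ = ζ₁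

variable (N : Node W R B1 B2 Oi Oz n)

theorem isUnit_of_pow_eq_one {M : Type*} [CommMonoid M] {x : M} (hn : n ≠ 0) (h : x ^ n = 1) :
    IsUnit x :=
  IsUnit.of_pow_eq_one h hn

/-- An `n`-th root of a unit is a unit. -/
theorem isUnit_of_pow_isUnit {M : Type*} [CommMonoid M] {x : M} (hn : n ≠ 0)
    (h : IsUnit (x ^ n)) : IsUnit x :=
  (isUnit_pow_iff hn).mp h

/-- Comparison of two `n`-th roots in a boundary ring, one of them a unit: they differ by a
constant root of unity. -/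
theorem exists_const_of_pow_eq₁ {y z : B1} (hz : IsUnit z) (h : y ^ n = z ^ n) :
    ∃ ζ : W, ζ ^ n = 1 ∧ y = N.a1 (N.cR ζ) * z := by
  obtain ⟨u, rfl⟩ := hz
  have h1 : (y * ((u⁻¹ : B1ˣ) : B1)) ^ n = 1 := by
    rw [mul_pow, h, ← mul_pow, Units.mul_inv, one_pow]
  obtain ⟨ζ, hζ, hζy⟩ := N.roots1 _ h1
  refine ⟨ζ, hζ, ?_⟩
  rw [hζy, mul_assoc, Units.inv_mul, mul_one]

theorem exists_const_of_pow_eq₂ {y z : B2} (hz : IsUnit z) (h : y ^ n = z ^ n) :
    ∃ ζ : W, ζ ^ n = 1 ∧ y = N.a2 (N.cR ζ) * z := by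
  obtain ⟨u, rfl⟩ := hz
  have h1 : (y * ((u⁻¹ : B2ˣ) : B2)) ^ n = 1 := by
    rw [mul_pow, h, ← mul_pow, Units.mul_inv, one_pow]
  obtain ⟨ζ, hζ, hζy⟩ := N.roots2 _ h1
  refine ⟨ζ, hζ, ?_⟩
  rw [hζy, mul_assoc, Units.inv_mul, mul_one]

/-- **Existence** of the gluing constant (this is where Birkhoff enters). -/
theorem exists_isGlue (hn : n ≠ 0) (d : RootDatum N) : ∃ ζ : W, IsGlue N d ζ := by
  obtain ⟨r, hr⟩ := N.birkhoff d.g d.hg ⟨_, d.h1⟩ ⟨_, d.h2⟩
  have hru : IsUnit r := isUnit_of_pow_isUnit hn (hr ▸ d.hg)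
  obtain ⟨ζ₁, hζ₁, h1⟩ := exists_const_of_pow_eq₁ N (hru.map N.a1)
    (show N.b1 d.yi ^ n = N.a1 r ^ n by rw [d.h1, ← map_pow, hr])
  obtain ⟨ζ₂, hζ₂, h2⟩ := exists_const_of_pow_eq₂ N (hru.map N.a2)
    (show N.b2 d.yz ^ n = N.a2 r ^ n by rw [d.h2, ← map_pow, hr])
  have hn' : n - 1 + 1 = n := Nat.sub_add_cancel (Nat.one_le_iff_ne_zero.mpr hn)
  refine ⟨ζ₁ * ζ₂ ^ (n - 1), ?_, r, hr, ζ₁, ζ₂, hζ₁, hζ₂, ?_, ?_, ?_⟩
  · rw [mul_pow, hζ₁, one_mul, ← pow_mul, mul_comm, pow_mul, hζ₂, one_pow]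
  · rw [h1, map_mul]
  · rw [h2, map_mul]
  · rw [mul_assoc, ← pow_succ, hn', hζ₂, mul_one]

/-- **Uniqueness** of the gluing constant. -/
theorem isGlue_unique (hn : n ≠ 0) (d : RootDatum N) {ζ ζ' : W} (h : IsGlue N d ζ)
    (h' : IsGlue N d ζ') : ζ = ζ' := by
  obtain ⟨-, r, hr, ζ₁, ζ₂, hζ₁, hζ₂, h1, h2, hζ⟩ := h
  obtain ⟨-, r', hr', ζ₁', ζ₂', hζ₁', hζ₂', h1', h2', hζ'⟩ := h'
  have hru : IsUnit r := isUnit_of_pow_isUnit hn (hr ▸ d.hg)
  -- `r' = ξ r`
  obtain ⟨ξ, hξ, hξr⟩ := exists_const_of_pow_eq₁ N (hru.map N.a1)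
    (show N.a1 r' ^ n = N.a1 r ^ n by rw [← map_pow, ← map_pow, hr, hr'])
  have hr'r : r' = N.cR ξ * r := N.a1_inj (by rw [hξr, map_mul])
  have ha1 : IsUnit (N.a1 r) := hru.map N.a1
  have ha2 : IsUnit (N.a2 r) := hru.map N.a2
  -- compare the constants
  have e1 : ζ₁ = ζ₁' * ξ := by
    apply N.const_inj1
    show N.a1 (N.cR ζ₁) = N.a1 (N.cR (ζ₁' * ξ))
    have : N.a1 (N.cR ζ₁) * N.a1 r = N.a1 (N.cR (ζ₁' * ξ)) * N.a1 r := by
      rw [← map_mul, ← h1, h1', hr'r, ← map_mul, map_mul N.cR, mul_assoc]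
    exact ha1.mul_left_injective this
  have e2 : ζ₂ = ζ₂' * ξ := by
    apply N.const_inj2
    show N.a2 (N.cR ζ₂) = N.a2 (N.cR (ζ₂' * ξ))
    have : N.a2 (N.cR ζ₂) * N.a2 r = N.a2 (N.cR (ζ₂' * ξ)) * N.a2 r := by
      rw [← map_mul, ← h2, h2', hr'r, ← map_mul, map_mul N.cR, mul_assoc]
    exact ha2.mul_left_injective this
  have hu : IsUnit (ζ₂' * ξ) :=
    (isUnit_of_pow_eq_one hn hζ₂').mul (isUnit_of_pow_eq_one hn hξ)
  have : ζ * (ζ₂' * ξ) = ζ' * (ζ₂' * ξ) := by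
    calc ζ * (ζ₂' * ξ) = ζ * ζ₂ := by rw [e2]
      _ = ζ₁ := hζ
      _ = ζ₁' * ξ := e1
      _ = ζ' * ζ₂' * ξ := by rw [hζ']
      _ = ζ' * (ζ₂' * ξ) := mul_assoc _ _ _
  exact hu.mul_left_injective this

/-- The gluing constant of a root datum. -/
noncomputable def glue (hn : n ≠ 0) (d : RootDatum N) : W := (exists_isGlue N hn d).choose

theorem isGlue_glue (hn : n ≠ 0) (d : RootDatum N) : IsGlue N d (glue N hn d) :=
  (exists_isGlue N hn d).choose_spec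

theorem glue_pow (hn : n ≠ 0) (d : RootDatum N) : glue N hn d ^ n = 1 := (isGlue_glue N hn d).1

theorem glue_eq_of_isGlue (hn : n ≠ 0) (d : RootDatum N) {ζ : W} (h : IsGlue N d ζ) :
    glue N hn d = ζ :=
  isGlue_unique N hn d (isGlue_glue N hn d) h

variable {N}

/-- **Multiplicativity.** -/
theorem IsGlue.mul {d e : RootDatum N} {ζ ζ' : W} (h : IsGlue N d ζ) (h' : IsGlue N e ζ') :
    IsGlue N (d.mul e) (ζ * ζ') := by
  obtain ⟨hζn, r, hr, ζ₁, ζ₂, hζ₁, hζ₂, h1, h2, hζ⟩ := h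
  obtain ⟨hζn', r', hr', ζ₁', ζ₂', hζ₁', hζ₂', h1', h2', hζ'⟩ := h'
  refine ⟨by rw [mul_pow, hζn, hζn', one_mul], r * r', by rw [mul_pow, hr, hr']; rfl,
    ζ₁ * ζ₁', ζ₂ * ζ₂', by rw [mul_pow, hζ₁, hζ₁', one_mul], by rw [mul_pow, hζ₂, hζ₂', one_mul],
    ?_, ?_, ?_⟩
  · show N.b1 (d.yi * e.yi) = _
    rw [map_mul, h1, h1', ← map_mul, map_mul N.cR]
    congr 1
    ring
  · show N.b2 (d.yz * e.yz) = _
    rw [map_mul, h2, h2', ← map_mul, map_mul N.cR]
    congr 1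
    ring
  · rw [← hζ, ← hζ']
    ring

/-- Rescaling the first root by `ξ` multiplies the gluing constant by `ξ`. -/
theorem IsGlue.smulLeft {d : RootDatum N} {ζ : W} (h : IsGlue N d ζ) (ξ : W) (hξ : ξ ^ n = 1) :
    IsGlue N (d.smulLeft ξ hξ) (ξ * ζ) := by
  obtain ⟨hζn, r, hr, ζ₁, ζ₂, hζ₁, hζ₂, h1, h2, hζ⟩ := h
  refine ⟨by rw [mul_pow, hξ, hζn, one_mul], r, hr, ξ * ζ₁, ζ₂,
    by rw [mul_pow, hξ, hζ₁, one_mul], hζ₂, ?_, h2, by rw [mul_assoc, hζ]⟩
  show N.b1 (N.cOi ξ * d.yi) = _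
  rw [map_mul, h1, ← N.comm1, ← map_mul, map_mul N.cR, mul_assoc]

/-- Rescaling the second root by `ξ` divides the gluing constant by `ξ` (`ξ⁻¹ = ξ ^ (n - 1)`). -/
theorem IsGlue.smulRight (hn : n ≠ 0) {d : RootDatum N} {ζ : W} (h : IsGlue N d ζ) (ξ : W)
    (hξ : ξ ^ n = 1) : IsGlue N (d.smulRight ξ hξ) (ξ ^ (n - 1) * ζ) := by
  obtain ⟨hζn, r, hr, ζ₁, ζ₂, hζ₁, hζ₂, h1, h2, hζ⟩ := h
  have hn' : n - 1 + 1 = n := Nat.sub_add_cancel (Nat.one_le_iff_ne_zero.mpr hn)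
  refine ⟨?_, r, hr, ζ₁, ξ * ζ₂, hζ₁, by rw [mul_pow, hξ, hζ₂, one_mul], h1, ?_, ?_⟩
  · rw [mul_pow, hζn, mul_one, ← pow_mul, mul_comm, pow_mul, hξ, one_pow]
  · show N.b2 (N.cOz ξ * d.yz) = _
    rw [map_mul, h2, ← N.comm2, ← map_mul, map_mul N.cR, mul_assoc]
  · calc ξ ^ (n - 1) * ζ * (ξ * ζ₂) = (ξ ^ (n - 1) * ξ) * (ζ * ζ₂) := by ring
      _ = ζ₁ := by rw [← pow_succ, hn', hξ, one_mul, hζ]

/-- The gluing constant is trivial iff the three roots are compatible (after replacing the node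
root by a constant multiple). This is the statement consumed by the algebraisation block D-B4. -/
theorem isGlue_one_iff {d : RootDatum N} :
    IsGlue N d 1 ↔ ∃ r : R, r ^ n = d.g ∧ N.b1 d.yi = N.a1 r ∧ N.b2 d.yz = N.a2 r := by
  constructor
  · rintro ⟨-, r, hr, ζ₁, ζ₂, hζ₁, -, h1, h2, hζ⟩
    rw [one_mul] at hζ
    subst hζ
    exact ⟨N.cR ζ₂ * r, by rw [mul_pow, ← map_pow, hζ₁, map_one, one_mul, hr], h1, h2⟩
  · rintro ⟨r, hr, h1, h2⟩
    exact ⟨one_pow n, r, hr, 1, 1, one_pow n, one_pow n, by rw [map_one, one_mul, h1],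
      by rw [map_one, one_mul, h2], one_mul 1⟩

/-- A global `n`-th power has trivial gluing constant. -/
theorem isGlue_ofRoot (r : R) (hr : IsUnit r) (yi : Oi) (yz : Oz) (h1 : N.b1 yi = N.a1 r)
    (h2 : N.b2 yz = N.a2 r) : IsGlue N (RootDatum.ofRoot r hr yi yz h1 h2) 1 :=
  isGlue_one_iff.mpr ⟨r, rfl, h1, h2⟩

theorem isGlue_one : IsGlue N (RootDatum.one : RootDatum N) 1 :=
  isGlue_one_iff.mpr ⟨1, one_pow n, by simp [RootDatum.one], by simp [RootDatum.one]⟩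

theorem IsGlue.npow {d : RootDatum N} {ζ : W} (h : IsGlue N d ζ) (k : ℕ) :
    IsGlue N (d.npow k) (ζ ^ k) := by
  obtain ⟨hζn, r, hr, ζ₁, ζ₂, hζ₁, hζ₂, h1, h2, hζ⟩ := h
  refine ⟨by rw [← pow_mul, mul_comm, pow_mul, hζn, one_pow], r ^ k,
    by rw [← pow_mul, mul_comm, pow_mul, hr]; rfl, ζ₁ ^ k, ζ₂ ^ k,
    by rw [← pow_mul, mul_comm, pow_mul, hζ₁, one_pow],
    by rw [← pow_mul, mul_comm, pow_mul, hζ₂, one_pow], ?_, ?_, by rw [← mul_pow, hζ]⟩
  · show N.b1 (d.yi ^ k) = _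
    rw [map_pow, h1, ← map_pow, mul_pow, map_pow]
  · show N.b2 (d.yz ^ k) = _
    rw [map_pow, h2, ← map_pow, mul_pow, map_pow]

/-- The gluing constant of the inverse datum is the inverse root of unity `ζ ^ (n - 1)`. -/
theorem IsGlue.inv (hn : n ≠ 0) {d : RootDatum N} {ζ : W} (h : IsGlue N d ζ) (yi' : Oi) (yz' : Oz)
    (hi : d.yi * yi' = 1) (hz : d.yz * yz' = 1) :
    IsGlue N (d.inv yi' yz' hi hz) (ζ ^ (n - 1)) := by
  -- `d * d⁻¹` is a global power with compatible roots, so the product of the constants is `1`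
  obtain ⟨ζ', hζ'⟩ := exists_isGlue N hn (d.inv yi' yz' hi hz)
  have hprod := h.mul hζ'
  have hone : IsGlue N (d.mul (d.inv yi' yz' hi hz)) 1 := by
    refine isGlue_one_iff.mpr ⟨1, ?_, ?_, ?_⟩
    · show (1 : R) ^ n = d.g * ((d.hg.unit⁻¹ : Rˣ) : R)
      rw [one_pow, IsUnit.mul_val_inv]
    · show N.b1 (d.yi * yi') = N.a1 1
      rw [hi, map_one, map_one]
    · show N.b2 (d.yz * yz') = N.a2 1
      rw [hz, map_one, map_one]
  have e : ζ * ζ' = 1 := isGlue_unique N hn _ hprod hone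
  have hn' : n - 1 + 1 = n := Nat.sub_add_cancel (Nat.one_le_iff_ne_zero.mpr hn)
  have : ζ' = ζ ^ (n - 1) := by
    calc ζ' = ζ ^ n * ζ' := by rw [h.1, one_mul]
      _ = ζ ^ (n - 1) * (ζ * ζ') := by rw [← hn', pow_succ, hn']; ring
      _ = ζ ^ (n - 1) := by rw [e, mul_one]
  rw [← this]
  exact hζ'

/-! ### Equivariance -/

/-- A (semilinear) endomorphism of the gluing diagram: ring homomorphisms of all the rings
commuting with all the structure maps. -/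
structure NodeHom (N : Node W R B1 B2 Oi Oz n) where
  σW : W →+* W
  σR : R →+* R
  σB1 : B1 →+* B1
  σB2 : B2 →+* B2
  σOi : Oi →+* Oi
  σOz : Oz →+* Oz
  hcR : ∀ c, σR (N.cR c) = N.cR (σW c)
  ha1 : ∀ x, σB1 (N.a1 x) = N.a1 (σR x)
  ha2 : ∀ x, σB2 (N.a2 x) = N.a2 (σR x)
  hb1 : ∀ x, σB1 (N.b1 x) = N.b1 (σOi x)
  hb2 : ∀ x, σB2 (N.b2 x) = N.b2 (σOz x)

/-- The image of a root datum under an endomorphism of the diagram. -/
def RootDatum.map (d : RootDatum N) (σ : NodeHom N) : RootDatum N where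
  g := σ.σR d.g
  hg := d.hg.map σ.σR
  yi := σ.σOi d.yi
  yz := σ.σOz d.yz
  h1 := by rw [← σ.hb1, ← map_pow, d.h1, σ.ha1]
  h2 := by rw [← σ.hb2, ← map_pow, d.h2, σ.ha2]

/-- **Equivariance**: the gluing constant of the transported datum is the transported gluing
constant. -/
theorem IsGlue.map {d : RootDatum N} {ζ : W} (h : IsGlue N d ζ) (σ : NodeHom N) :
    IsGlue N (d.map σ) (σ.σW ζ) := by
  obtain ⟨hζn, r, hr, ζ₁, ζ₂, hζ₁, hζ₂, h1, h2, hζ⟩ := h
  refine ⟨by rw [← map_pow, hζn, map_one], σ.σR r, by rw [← map_pow, hr]; rfl, σ.σW ζ₁, σ.σW ζ₂,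
    by rw [← map_pow, hζ₁, map_one], by rw [← map_pow, hζ₂, map_one], ?_, ?_,
    by rw [← map_mul, hζ]⟩
  · show N.b1 (σ.σOi d.yi) = _
    rw [← σ.hb1, h1, σ.ha1, map_mul, σ.hcR]
  · show N.b2 (σ.σOz d.yz) = _
    rw [← σ.hb2, h2, σ.ha2, map_mul, σ.hcR]

theorem glue_map (hn : n ≠ 0) (d : RootDatum N) (σ : NodeHom N) :
    glue N hn (d.map σ) = σ.σW (glue N hn d) :=
  glue_eq_of_isGlue N hn _ ((isGlue_glue N hn d).map σ)

theorem glue_mul (hn : n ≠ 0) (d e : RootDatum N) :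
    glue N hn (d.mul e) = glue N hn d * glue N hn e :=
  glue_eq_of_isGlue N hn _ ((isGlue_glue N hn d).mul (isGlue_glue N hn e))

theorem glue_smulLeft (hn : n ≠ 0) (d : RootDatum N) (ξ : W) (hξ : ξ ^ n = 1) :
    glue N hn (d.smulLeft ξ hξ) = ξ * glue N hn d :=
  glue_eq_of_isGlue N hn _ ((isGlue_glue N hn d).smulLeft ξ hξ)

theorem glue_smulRight (hn : n ≠ 0) (d : RootDatum N) (ξ : W) (hξ : ξ ^ n = 1) :
    glue N hn (d.smulRight ξ hξ) = ξ ^ (n - 1) * glue N hn d :=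
  glue_eq_of_isGlue N hn _ ((isGlue_glue N hn d).smulRight hn ξ hξ)

theorem glue_eq_one_iff (hn : n ≠ 0) (d : RootDatum N) :
    glue N hn d = 1 ↔ ∃ r : R, r ^ n = d.g ∧ N.b1 d.yi = N.a1 r ∧ N.b2 d.yz = N.a2 r := by
  rw [← isGlue_one_iff]
  constructor
  · intro h
    rw [← h]
    exact isGlue_glue N hn d
  · exact glue_eq_of_isGlue N hn d

end Fermat.Agent.FF3.Glue
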