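import Fermat.Agent.FF3.Glue.Node

/-!
# Programme I, contract D-B2, part 3: the root-of-unity hypotheses of a gluing node

In the instances the boundary rings `B1`, `B2` are domains (complete discrete valuation rings) and
the constants contain a primitive `n`-th root of unity.  Then `roots1`, `roots2` of `Glue.Node`
hold automatically (`exists_const_of_pow_eq_one`).
-/

set_option autoImplicit false

namespace Fermat.Agent.FF3.Glue

variable {W B : Type*} [CommRing W] [CommRing B] [IsDomain B] {n : ℕ}

/-- In a domain `B` receiving injectively a ring `W` with a primitive `n`-th root of unity, every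
`n`-th root of `1` in `B` is (the image of) a constant. -/
theorem exists_const_of_pow_eq_one (φ : W →+* B) (hφ : Function.Injective φ) (hn : n ≠ 0) {ζ : W}
    (hζ : IsPrimitiveRoot ζ n) {y : B} (hy : y ^ n = 1) : ∃ ξ : W, ξ ^ n = 1 ∧ φ ξ = y := by
  have : NeZero n := ⟨hn⟩
  have hζ' : IsPrimitiveRoot (φ ζ) n := hζ.map_of_injective hφ
  obtain ⟨i, -, hi⟩ := hζ'.eq_pow_of_pow_eq_one hy
  refine ⟨ζ ^ i, ?_, by rw [map_pow, hi]⟩
  rw [← pow_mul, mul_comm, pow_mul, hζ.pow_eq_one, one_pow]

end Fermat.Agent.FF3.Glue
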